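import Mathlib
import Fermat.Prelude.Def_FLTPrelim_Modularity
import Fermat.Prelude.Def_ModularForm_HeckeOperator
import Fermat.Prelude.Thm_UpperHalfPlane_qCoeff_heckeT
import Fermat.Prelude.Thm_UpperHalfPlane_qCoeff_heckeU
import Fermat.Prelude.Thm_ModularForm_mdifferentiable_heckeT
import Fermat.Prelude.Thm_ModularForm_mdifferentiable_heckeU
import Fermat.Prelude.Thm_ModularForm_isBoundedAtImInfty_heckeT
import Fermat.Prelude.Thm_ModularForm_isBoundedAtImInfty_heckeU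
import Fermat.Prelude.Thm_ModularForm_periodic_heckeT_comp_ofComplex
import Fermat.Prelude.Thm_ModularForm_periodic_heckeU_comp_ofComplex
import Fermat.Agent.S23.Nice
import Fermat.Agent.DS.A.Decomp

/-!
# Program DS (S48, Deligne–Serre), package HO: diamond and Hecke operators on `S_k(Γ₁(N))`

Operator-level layer on top of helper8's function-level package (A) (`dsa_*`):

* `dsDiamond N k d`      : the diamond operator `⟨d⟩` as a `ℂ`-linear endomorphism;
* `dsHeckeT N k hp hpN`  : the Hecke operator `T_p f = U_p f + (⟨p⟩ f) ∣ diag(p, 1)`, `p ∤ N`;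
* `qCoeff_dsHeckeT`      : `aₙ(T_p f) = a_{pn}(f) + p^{k-1} a_{n/p}(⟨p⟩ f)`;
* `dsHeckeT_comm_diamond`.

Names and statements are those of the (deleted) `DS/AB/Spec.lean` bf2f0d9, section HO, which the
package CT consumes.
-/

set_option autoImplicit false

noncomputable section

namespace Fermat.Agent.DS

open CongruenceSubgroup UpperHalfPlane ModularFormClass ModularForm
open scoped MatrixGroups ModularForm

section HO

variable (N : ℕ) [NeZero N] (k : ℤ)

/-- **HO-1**.  The diamond operator `⟨d⟩`: slash by any element of `Γ₀(N)` with lower right entry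
`≡ d`. -/
def dsDiamond (d : (ZMod N)ˣ) : CuspForm (Gamma1 N) k →ₗ[ℂ] CuspForm (Gamma1 N) k :=
  dsa_diamond N k d

theorem dsDiamond_coe (d : (ZMod N)ˣ) (f : CuspForm (Gamma1 N) k) (γ : SL(2, ℤ))
    (hγ : γ ∈ Gamma0 N) (hd : ((γ 1 1 : ℤ) : ZMod N) = d) :
    (dsDiamond N k d f : ℍ → ℂ) = (f : ℍ → ℂ) ∣[k] γ :=
  dsa_diamond_coe N k d f γ hγ hd

theorem dsDiamond_mul (d e : (ZMod N)ˣ) :
    dsDiamond N k (d * e) = (dsDiamond N k d).comp (dsDiamond N k e) := by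
  apply LinearMap.ext
  intro f
  apply DFunLike.coe_injective
  show ⇑(dsa_diamond N k (d * e) f) = ⇑(dsa_diamond N k d (dsa_diamond N k e f))
  have h1 : ⇑(dsa_diamond N k d (dsa_diamond N k e f))
      = ⇑(dsa_diamond N k e f) ∣[k] (dsa_liftElt N d) := rfl
  rw [h1, dsa_diamond_slash N k e d f (dsa_liftElt N d) (dsa_liftElt_mem N d) (dsa_liftElt_d N d),
    mul_comm]

theorem dsDiamond_one : dsDiamond N k 1 = LinearMap.id := by
  apply LinearMap.ext
  intro f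
  exact dsa_diamond_one N k f

/-- the unit `p mod N` for a prime `p ∤ N`. -/
abbrev dshoUnit {p : ℕ} (hp : p.Prime) (hpN : ¬ p ∣ N) : (ZMod N)ˣ :=
  ZMod.unitOfCoprime p ((Nat.Prime.coprime_iff_not_dvd hp).mpr hpN)

/-- the underlying function of `T_p f`. -/
def dshoTFun {p : ℕ} (hp : p.Prime) (hpN : ¬ p ∣ N) (f : CuspForm (Gamma1 N) k) : ℍ → ℂ :=
  heckeU k p (f : ℍ → ℂ) + (dsDiamond N k (dshoUnit N hp hpN) f : ℍ → ℂ) ∣[k] heckeDiagMatrix p

theorem dsho_diamond_neben (χ : DirichletCharacter ℂ N) (f : CuspForm (Gamma1 N) k)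
    (hf : dsa_Neben N k χ ⇑f) (d : (ZMod N)ˣ) :
    dsDiamond N k d f = χ (d : ZMod N) • f := by
  apply DFunLike.coe_injective
  rw [dsDiamond_coe N k d f (dsa_liftElt N d) (dsa_liftElt_mem N d) (dsa_liftElt_d N d),
    hf _ (dsa_liftElt_mem N d), dsa_liftElt_d]
  rfl

theorem dshoTFun_add {p : ℕ} (hp : p.Prime) (hpN : ¬ p ∣ N) (f g : CuspForm (Gamma1 N) k) :
    dshoTFun N k hp hpN (f + g) = dshoTFun N k hp hpN f + dshoTFun N k hp hpN g := by
  simp only [dshoTFun, map_add, FunLike.coe_add, heckeU_add, SlashAction.add_slash]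
  abel

theorem dshoTFun_smul {p : ℕ} (hp : p.Prime) (hpN : ¬ p ∣ N) (c : ℂ) (f : CuspForm (Gamma1 N) k) :
    dshoTFun N k hp hpN (c • f) = c • dshoTFun N k hp hpN f := by
  simp only [dshoTFun, map_smul, FunLike.coe_smul, heckeU_smul, smul_add]
  congr 1
  exact dsa_smul_D k p c _

theorem dshoTFun_sum {p : ℕ} (hp : p.Prime) (hpN : ¬ p ∣ N) {ι : Type*} (s : Finset ι)
    (f : ι → CuspForm (Gamma1 N) k) :
    dshoTFun N k hp hpN (∑ i ∈ s, f i) = ∑ i ∈ s, dshoTFun N k hp hpN (f i) := by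
  classical
  induction s using Finset.induction_on with
  | empty =>
    simp only [Finset.sum_empty]
    have := dshoTFun_smul N k hp hpN 0 (0 : CuspForm (Gamma1 N) k)
    simpa using this
  | insert a s ha ih => rw [Finset.sum_insert ha, Finset.sum_insert ha, dshoTFun_add, ih]

theorem dshoTFun_neben {p : ℕ} (hp : p.Prime) (hpN : ¬ p ∣ N) (χ : DirichletCharacter ℂ N)
    (f : CuspForm (Gamma1 N) k) (hf : dsa_Neben N k χ ⇑f) :
    dshoTFun N k hp hpN f = dsa_T k p (χ (p : ZMod N)) ⇑f := by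
  rw [dshoTFun, dsho_diamond_neben N k χ f hf, dsa_T, dsa_D]
  congr 1
  have : ((dshoUnit N hp hpN : (ZMod N)ˣ) : ZMod N) = (p : ZMod N) := ZMod.coe_unitOfCoprime p _
  rw [this, FunLike.coe_smul]
  exact dsa_smul_D k p _ _

theorem dshoTFun_inv1 {p : ℕ} (hp : p.Prime) (hpN : ¬ p ∣ N) (f : CuspForm (Gamma1 N) k) :
    dsa_Inv1 N k (dshoTFun N k hp hpN f) := by
  conv => rw [← dsa_sum_comp N k f]
  rw [dshoTFun_sum]
  refine dsa_inv1_sum _ fun χ _ => ?_
  rw [dshoTFun_neben N k hp hpN χ _ (dsa_comp_neben N k χ f)]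
  exact dsa_inv1_of_neben N k χ _ (dsa_T_neben N k p hp hpN χ _ (dsa_comp_neben N k χ f))

theorem dshoTFun_reg {p : ℕ} (hp : p.Prime) (hpN : ¬ p ∣ N) (f : CuspForm (Gamma1 N) k) :
    dsa_Reg k (dshoTFun N k hp hpN f) :=
  dsa_reg_add (dsa_reg_U p (dsa_reg_coe N k f)) (dsa_reg_D p (dsa_reg_coe N k _))

/-- **HO-2**.  The Hecke operator `T_p`, `p ∤ N`:
`T_p f = U_p f + (⟨p⟩ f) ∣ diag(p, 1)`. -/
def dsHeckeT {p : ℕ} (hp : p.Prime) (hpN : ¬ p ∣ N) :
    CuspForm (Gamma1 N) k →ₗ[ℂ] CuspForm (Gamma1 N) k where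
  toFun f := dsa_mkCusp' N k (dshoTFun N k hp hpN f) (dshoTFun_inv1 N k hp hpN f)
    (dshoTFun_reg N k hp hpN f)
  map_add' f g := by
    apply DFunLike.coe_injective
    show dshoTFun N k hp hpN (f + g) = dshoTFun N k hp hpN f + dshoTFun N k hp hpN g
    exact dshoTFun_add N k hp hpN f g
  map_smul' c f := by
    apply DFunLike.coe_injective
    show dshoTFun N k hp hpN (c • f) = c • dshoTFun N k hp hpN f
    exact dshoTFun_smul N k hp hpN c f

theorem dsHeckeT_coe {p : ℕ} (hp : p.Prime) (hpN : ¬ p ∣ N) (f : CuspForm (Gamma1 N) k) :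
    (dsHeckeT N k hp hpN f : ℍ → ℂ) = ModularForm.heckeU k p (f : ℍ → ℂ)
      + (dsDiamond N k (ZMod.unitOfCoprime p
          ((Nat.Prime.coprime_iff_not_dvd hp).mpr hpN)) f : ℍ → ℂ)
        ∣[k] ModularForm.heckeDiagMatrix p := rfl

omit [NeZero N] in
theorem dsho_one_mem_strictPeriods :
    (1 : ℝ) ∈ (Subgroup.map (Matrix.SpecialLinearGroup.mapGL ℝ) (Gamma1 N)).strictPeriods := by
  have hT : ModularGroup.T ∈ Gamma1 N := by
    rw [Gamma1_mem]
    simp [ModularGroup.T]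
  rw [Subgroup.strictPeriods_eq_zmultiples_one_of_T_mem hT]
  exact AddSubgroup.mem_zmultiples (1 : ℝ)

theorem dsho_isNice (f : CuspForm (Gamma1 N) k) : Fermat.Agent.S23.IsNice (f : ℍ → ℂ) :=
  Fermat.Agent.S23.isNice_of_modularForm (dsho_one_mem_strictPeriods N) f

theorem dsho_qCoeff_add {F G : ℍ → ℂ} (hF : Fermat.Agent.S23.IsNice F)
    (hG : Fermat.Agent.S23.IsNice G) (n : ℕ) : qCoeff (F + G) n = qCoeff F n + qCoeff G n := by
  simp only [qCoeff, hF.qExpansion_add hG, map_add]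

theorem dsho_isNice_U {F : ℍ → ℂ} (hF : Fermat.Agent.S23.IsNice F) (k : ℤ) (p : ℕ) :
    Fermat.Agent.S23.IsNice (heckeU k p F) :=
  ⟨ModularForm.mdifferentiable_heckeU hF.holo k p,
    ModularForm.periodic_heckeU_comp_ofComplex hF.periodic k p,
    ModularForm.isBoundedAtImInfty_heckeU hF.bdd k p⟩

theorem dsho_isNice_T {F : ℍ → ℂ} (hF : Fermat.Agent.S23.IsNice F) (k : ℤ) (p : ℕ) :
    Fermat.Agent.S23.IsNice (heckeT k p F) :=
  ⟨ModularForm.mdifferentiable_heckeT hF.holo k p,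
    ModularForm.periodic_heckeT_comp_ofComplex hF.periodic k p,
    ModularForm.isBoundedAtImInfty_heckeT hF.bdd k p⟩

theorem dsho_D_eq (k : ℤ) (p : ℕ) (F : ℍ → ℂ) :
    F ∣[k] heckeDiagMatrix p = heckeT k p F - heckeU k p F := by
  rw [heckeT_eq_heckeU_add]; abel

theorem dsho_isNice_D {F : ℍ → ℂ} (hF : Fermat.Agent.S23.IsNice F) (k : ℤ) (p : ℕ) :
    Fermat.Agent.S23.IsNice (F ∣[k] heckeDiagMatrix p) := by
  rw [dsho_D_eq]
  exact (dsho_isNice_T hF k p).sub (dsho_isNice_U hF k p)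

theorem dsho_qCoeff_D {F : ℍ → ℂ} (hF : Fermat.Agent.S23.IsNice F) (k : ℤ) {p : ℕ} (hp : p ≠ 0)
    (n : ℕ) :
    qCoeff (F ∣[k] heckeDiagMatrix p) n
      = if p ∣ n then (p : ℂ) ^ (k - 1) * qCoeff F (n / p) else 0 := by
  rw [dsho_D_eq]
  have h1 : qCoeff (heckeT k p F - heckeU k p F) n
      = qCoeff (heckeT k p F) n - qCoeff (heckeU k p F) n := by
    simp only [qCoeff, UpperHalfPlane.qExpansion_sub (dsho_isNice_T hF k p).analyticAt
      (dsho_isNice_U hF k p).analyticAt, map_sub]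
  rw [h1, UpperHalfPlane.qCoeff_heckeT hF.periodic hF.holo hF.bdd k hp,
    UpperHalfPlane.qCoeff_heckeU hF.periodic hF.holo hF.bdd k hp,
    coeffHeckeT_eq_coeffHeckeU_add, add_sub_cancel_left]

/-- **HO-3**.  `q`-expansion of `T_p f`. -/
theorem qCoeff_dsHeckeT {p : ℕ} (hp : p.Prime) (hpN : ¬ p ∣ N) (f : CuspForm (Gamma1 N) k)
    (n : ℕ) :
    qCoeff (dsHeckeT N k hp hpN f) n = qCoeff f (p * n)
      + (p : ℂ) ^ (k - 1) * (if p ∣ n then
          qCoeff (dsDiamond N k (ZMod.unitOfCoprime p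
            ((Nat.Prime.coprime_iff_not_dvd hp).mpr hpN)) f) (n / p) else 0) := by
  have nf := dsho_isNice N k f
  have ng := dsho_isNice N k (dsDiamond N k (ZMod.unitOfCoprime p
      ((Nat.Prime.coprime_iff_not_dvd hp).mpr hpN)) f)
  have hp0 : p ≠ 0 := hp.ne_zero
  rw [dsHeckeT_coe, dsho_qCoeff_add (dsho_isNice_U nf k p) (dsho_isNice_D ng k p),
    UpperHalfPlane.qCoeff_heckeU nf.periodic nf.holo nf.bdd k hp0, dsho_qCoeff_D ng k hp0,
    coeffHeckeU_apply, mul_comm n p]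
  congr 1
  split_ifs <;> simp

/-- on a form with nebentypus `χ`, `T_p` is helper8's twisted operator `T^{χ(p)}`. -/
theorem dsHeckeT_coe_of_neben {p : ℕ} (hp : p.Prime) (hpN : ¬ p ∣ N)
    (χ : DirichletCharacter ℂ N) (f : CuspForm (Gamma1 N) k) (hf : dsa_Neben N k χ ⇑f) :
    (dsHeckeT N k hp hpN f : ℍ → ℂ) = dsa_T k p (χ (p : ZMod N)) ⇑f :=
  dshoTFun_neben N k hp hpN χ f hf

theorem dsHeckeT_neben {p : ℕ} (hp : p.Prime) (hpN : ¬ p ∣ N)
    (χ : DirichletCharacter ℂ N) (f : CuspForm (Gamma1 N) k) (hf : dsa_Neben N k χ ⇑f) :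
    dsa_Neben N k χ ⇑(dsHeckeT N k hp hpN f) := by
  rw [dsHeckeT_coe_of_neben N k hp hpN χ f hf]
  exact dsa_T_neben N k p hp hpN χ _ hf

theorem dsHeckeT_comm_diamond {p : ℕ} (hp : p.Prime) (hpN : ¬ p ∣ N) (d : (ZMod N)ˣ) :
    (dsHeckeT N k hp hpN).comp (dsDiamond N k d)
      = (dsDiamond N k d).comp (dsHeckeT N k hp hpN) := by
  apply LinearMap.ext
  intro f
  conv_lhs => rw [← dsa_sum_comp N k f]
  conv_rhs => rw [← dsa_sum_comp N k f]
  simp only [LinearMap.comp_apply, map_sum]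
  refine Finset.sum_congr rfl fun χ _ => ?_
  have hχ := dsa_comp_neben N k χ f
  rw [dsho_diamond_neben N k χ _ hχ, map_smul,
    dsho_diamond_neben N k χ _ (dsHeckeT_neben N k hp hpN χ _ hχ)]

end HO

end Fermat.Agent.DS
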