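import Mathlib
import Fermat.Agent.DS.A.Main
import Fermat.Agent.DS.B.Defs
import Fermat.Agent.DS.HO.Ops

/-!
# Program DS (S48), package HO: the weight one eigenform in operator language

`DsEigen N ε f` (the frozen hypotheses of S48) gives, through helper8's package (A):
`f` has nebentypus `ε` (`ds_nebentypus`, `ds_diamond_eq`), `ε` is odd (`ds_eps_odd`), and `f` is an
eigenvector of the honest Hecke operators `dsHeckeT N 1` (`ds_hecke_eigen`).

Names and statements are those of the (deleted) `DS/AB/Spec.lean` bf2f0d9, section A.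
-/

set_option autoImplicit false

noncomputable section

namespace Fermat.Agent.DS

open CongruenceSubgroup UpperHalfPlane ModularFormClass ModularForm
open scoped MatrixGroups ModularForm

section A

variable {N : ℕ} [NeZero N] {ε : DirichletCharacter ℂ N} {f : CuspForm (Gamma1 N) 1}

theorem ds_nebentypus (h : DsEigen N ε f) (γ : SL(2, ℤ)) (hγ : γ ∈ Gamma0 N) :
    (f : ℍ → ℂ) ∣[(1 : ℤ)] γ = ε ((γ 1 1 : ℤ) : ZMod N) • (f : ℍ → ℂ) :=
  dsa_nebentypus_one N ε f h.hecke γ hγ

theorem dsho_neben_of_eigen (h : DsEigen N ε f) : dsa_Neben N 1 ε ⇑f :=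
  fun γ hγ => ds_nebentypus h γ hγ

/-- **A-1**.  `f` has nebentypus `ε`. -/
theorem ds_diamond_eq (h : DsEigen N ε f) (d : (ZMod N)ˣ) :
    dsDiamond N 1 d f = ε d • f :=
  dsho_diamond_neben N 1 ε f (dsho_neben_of_eigen h) d

theorem ds_eps_odd (h : DsEigen N ε f) : ε (-1) = -1 :=
  dsa_eps_neg_one N ε f h.one h.hecke

/-- **A-2**.  `f` is an eigenvector of the honest Hecke operators. -/
theorem ds_hecke_eigen (h : DsEigen N ε f) {p : ℕ} (hp : p.Prime) (hpN : ¬ p ∣ N) :
    dsHeckeT N 1 hp hpN f = qCoeff f p • f := by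
  apply DFunLike.coe_injective
  rw [dsHeckeT_coe_of_neben N 1 hp hpN ε f (dsho_neben_of_eigen h), FunLike.coe_smul]
  exact dsa_hecke_fun N ε f h.hecke p hp hpN

end A

end Fermat.Agent.DS
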